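import Mathlib

set_option autoImplicit false

/-!
# S17 / heights package, piece (RAT): abstract Galois descent

`K ⊆ L` a (possibly infinite) Galois extension, `G = L ≃ₐ[K] L`, `V` an `L`-vector space with a
semilinear action `act` of `G`, `U` a `G`-stable `L`-subspace all of whose vectors have open
stabiliser.  Then `U` is spanned over `L` by its `G`-fixed vectors (`span_fixed_eq`).

The proof is the classical trace argument: for `u ∈ U` fixed by `Gal(L/E)`, `E/K` finite normal,
the vectors `t e = ∑_{γ ∈ Gal(E/K)} γ(e) • γ u` (`e ∈ E`) are fixed, and `u` lies in their span by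
Dedekind's independence of characters.
-/

noncomputable section

namespace Fermat.Agent.S17.RatDesc

open IntermediateField

variable {K L V : Type*} [Field K] [Field L] [Algebra K L] [AddCommGroup V] [Module L V]

/-- A semilinear action of `L ≃ₐ[K] L` on an `L`-vector space, as a bare function with axioms. -/
structure SemiAct (K L V : Type*) [Field K] [Field L] [Algebra K L] [AddCommGroup V]
    [Module L V] where
  /-- the action -/
  act : (L ≃ₐ[K] L) → V → V
  act_one : ∀ v, act 1 v = v
  act_mul : ∀ g h v, act (g * h) v = act g (act h v)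
  act_add : ∀ g v w, act g (v + w) = act g v + act g w
  act_smul : ∀ g (a : L) v, act g (a • v) = g a • act g v

namespace SemiAct

variable (A : SemiAct K L V)

theorem act_zero (g : L ≃ₐ[K] L) : A.act g 0 = 0 := by
  have h := A.act_add g 0 0
  rw [add_zero] at h
  exact left_eq_add.mp h

theorem act_sum {ι : Type*} (s : Finset ι) (g : L ≃ₐ[K] L) (f : ι → V) :
    A.act g (∑ i ∈ s, f i) = ∑ i ∈ s, A.act g (f i) := by
  classical
  induction s using Finset.induction_on with
  | empty => simpa using A.act_zero g
  | insert a s ha ih => rw [Finset.sum_insert ha, Finset.sum_insert ha, A.act_add, ih]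

/-- the set of fixed vectors -/
def fixed : Set V := {v | ∀ g, A.act g v = v}

/-- `u` has open stabiliser -/
def OpenStab (u : V) : Prop :=
  ∃ E : IntermediateField K L, FiniteDimensional K E ∧
    ∀ g : L ≃ₐ[K] L, (∀ a ∈ E, g a = a) → A.act g u = u

end SemiAct

section Main

variable [Normal K L] (A : SemiAct K L V)

/-- the key step: a vector with open stabiliser lies in the span of the fixed vectors of any
stable subspace containing it. -/
theorem mem_span_fixed (U : Submodule L V) (hU : ∀ g, ∀ u ∈ U, A.act g u ∈ U)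
    {u : V} (hu : u ∈ U) (hopen : A.OpenStab u) :
    u ∈ Submodule.span L {v | v ∈ U ∧ ∀ g, A.act g v = v} := by
  classical
  obtain ⟨E₀, hE₀, hfix₀⟩ := hopen
  -- pass to the normal closure
  set E : IntermediateField K L := normalClosure K E₀ L with hE
  have hEfin : FiniteDimensional K E := normalClosure.is_finiteDimensional K E₀ L
  have hEnorm : Normal K E := normalClosure.normal K E₀ L
  have hle : E₀ ≤ E := IntermediateField.le_normalClosure E₀
  have hfix : ∀ g : L ≃ₐ[K] L, (∀ a ∈ E, g a = a) → A.act g u = u :=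
    fun g hg => hfix₀ g fun a ha => hg a (hle ha)
  -- the finite Galois group and the restriction map
  let res : (L ≃ₐ[K] L) →* (E ≃ₐ[K] E) := AlgEquiv.restrictNormalHom E
  have hres_surj : Function.Surjective res := AlgEquiv.restrictNormalHom_surjective L
  have hres_apply : ∀ (g : L ≃ₐ[K] L) (x : E), ((res g x : E) : L) = g (x : L) :=
    fun g x => AlgEquiv.restrictNormalHom_apply E g x
  let _ : Fintype (E ≃ₐ[K] E) := Fintype.ofFinite _
  let s : (E ≃ₐ[K] E) → (L ≃ₐ[K] L) := Function.surjInv hres_surj
  have hs : ∀ γ, res (s γ) = γ := Function.surjInv_eq hres_surj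
  -- key fact
  have KF : ∀ g g' : L ≃ₐ[K] L, res g = res g' → A.act g u = A.act g' u := by
    intro g g' h
    have h1 : res (g⁻¹ * g') = 1 := by rw [map_mul, map_inv, h, inv_mul_cancel]
    have h2 : A.act (g⁻¹ * g') u = u := by
      apply hfix
      intro a ha
      have := hres_apply (g⁻¹ * g') ⟨a, ha⟩
      rw [h1] at this
      exact this.symm
    calc A.act g u = A.act g (A.act (g⁻¹ * g') u) := by rw [h2]
      _ = A.act (g * (g⁻¹ * g')) u := (A.act_mul _ _ _).symm
      _ = A.act g' u := by rw [mul_inv_cancel_left]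
  -- the trace vectors
  let t : E → V := fun e => ∑ γ : E ≃ₐ[K] E, ((γ e : E) : L) • A.act (s γ) u
  have ht_mem : ∀ e, t e ∈ U := fun e =>
    Submodule.sum_mem _ fun γ _ => Submodule.smul_mem _ _ (hU _ _ hu)
  have ht_fix : ∀ e g, A.act g (t e) = t e := by
    intro e g
    show A.act g (∑ γ : E ≃ₐ[K] E, ((γ e : E) : L) • A.act (s γ) u) = _
    rw [A.act_sum]
    have h1 : ∀ γ : E ≃ₐ[K] E, A.act g (((γ e : E) : L) • A.act (s γ) u)
        = (((res g * γ) e : E) : L) • A.act (s (res g * γ)) u := by
      intro γ
      rw [A.act_smul, ← A.act_mul]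
      congr 1
      · rw [← hres_apply]; rfl
      · apply KF
        rw [map_mul, hs, hs]
    rw [Finset.sum_congr rfl fun γ _ => h1 γ]
    exact Fintype.sum_equiv (Equiv.mulLeft (res g)) _ _ fun γ => rfl
  -- `u` is in the span of the `t e`
  have hspan : u ∈ Submodule.span L (Set.range t) := by
    by_contra hnot
    obtain ⟨φ, hφu, hφ⟩ := Submodule.exists_le_ker_of_notMem hnot
    have hφt : ∀ e, φ (t e) = 0 := fun e =>
      LinearMap.mem_ker.mp (hφ (Submodule.subset_span ⟨e, rfl⟩))
    -- characters
    let χ : (E ≃ₐ[K] E) → (E →* L) := fun γ =>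
      ((algebraMap E L).comp (γ : E →+* E) : E →+* L).toMonoidHom
    have hχ_inj : Function.Injective χ := by
      intro γ γ' h
      ext x
      have := DFunLike.congr_fun h x
      exact congrArg Subtype.val (Subtype.ext this)
    have hli := (linearIndependent_monoidHom E L).comp χ hχ_inj
    rw [Fintype.linearIndependent_iff] at hli
    have hzero : ∑ γ : E ≃ₐ[K] E, φ (A.act (s γ) u) • (fun x : E => (χ γ x : L)) = 0 := by
      funext e
      have := hφt e
      simp only [t, map_sum, map_smul, smul_eq_mul] at this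
      simp only [Finset.sum_apply, Pi.smul_apply, smul_eq_mul, Pi.zero_apply]
      rw [← this]
      refine Finset.sum_congr rfl fun γ _ => ?_
      rw [mul_comm]
      rfl
    have h1 := hli (fun γ => φ (A.act (s γ) u)) hzero 1
    have h2 : A.act (s 1) u = u := by
      rw [KF (s 1) 1 (by rw [hs, map_one]), A.act_one]
    rw [h2] at h1
    exact hφu h1
  refine Submodule.span_mono ?_ hspan
  rintro _ ⟨e, rfl⟩
  exact ⟨ht_mem e, ht_fix e⟩

/-- **Galois descent.** A stable subspace whose vectors have open stabilisers is spanned by its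
fixed vectors. -/
theorem span_fixed_eq (U : Submodule L V) (hU : ∀ g, ∀ u ∈ U, A.act g u ∈ U)
    (hopen : ∀ u ∈ U, A.OpenStab u) :
    Submodule.span L {v | v ∈ U ∧ ∀ g, A.act g v = v} = U := by
  apply le_antisymm
  · exact Submodule.span_le.mpr fun v hv => hv.1
  · exact fun u hu => mem_span_fixed A U hU hu (hopen u hu)

/-- A finite-dimensional stable subspace whose vectors have open stabilisers has a basis
consisting of fixed vectors (family form). -/
theorem exists_fixed_family (U : Submodule L V) [FiniteDimensional L U]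
    (hU : ∀ g, ∀ u ∈ U, A.act g u ∈ U) (hopen : ∀ u ∈ U, A.OpenStab u) :
    ∃ (n : ℕ) (b : Fin n → V), LinearIndependent L b ∧ Submodule.span L (Set.range b) = U ∧
      ∀ i g, A.act g (b i) = b i := by
  classical
  obtain ⟨B, hBS, hBspan, hBli⟩ := exists_linearIndependent L {v | v ∈ U ∧ ∀ g, A.act g v = v}
  rw [span_fixed_eq A U hU hopen] at hBspan
  have hBU : ∀ x : B, (x : V) ∈ U := fun x => (hBS x.2).1
  -- `B` is finite
  have hli' : LinearIndependent L (fun x : B => (⟨(x : V), hBU x⟩ : U)) := by
    apply LinearIndependent.of_comp U.subtype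
    exact hBli
  have : Finite B := hli'.finite
  obtain ⟨n, ⟨e⟩⟩ : ∃ n : ℕ, Nonempty (B ≃ Fin n) := Finite.exists_equiv_fin B
  refine ⟨n, fun i => ((e.symm i : B) : V), hBli.comp e.symm e.symm.injective, ?_,
    fun i g => (hBS (e.symm i).2).2 g⟩
  have hrange : Set.range (fun i => ((e.symm i : B) : V)) = B := by
    ext v
    constructor
    · rintro ⟨i, rfl⟩
      exact (e.symm i).2
    · intro hv
      exact ⟨e ⟨v, hv⟩, by simp⟩
  rw [hrange, hBspan]

/-- A finite-dimensional stable subspace whose vectors have open stabilisers has a basis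
consisting of fixed vectors (`Module.Basis` form). -/
theorem exists_fixed_basis (U : Submodule L V) [FiniteDimensional L U]
    (hU : ∀ g, ∀ u ∈ U, A.act g u ∈ U) (hopen : ∀ u ∈ U, A.OpenStab u) :
    ∃ (n : ℕ) (b : Module.Basis (Fin n) L U), ∀ i g, A.act g (b i : V) = (b i : V) := by
  classical
  obtain ⟨n, b, hli, hspan, hfix⟩ := exists_fixed_family A U hU hopen
  have hbU : ∀ i, b i ∈ U := fun i => by
    rw [← hspan]
    exact Submodule.subset_span ⟨i, rfl⟩
  let b' : Fin n → U := fun i => ⟨b i, hbU i⟩
  have hli' : LinearIndependent L b' := by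
    apply LinearIndependent.of_comp U.subtype
    exact hli
  have hsp' : ⊤ ≤ Submodule.span L (Set.range b') := by
    rintro ⟨u, hu⟩ -
    have h1 : u ∈ Submodule.span L (Set.range b) := by rw [hspan]; exact hu
    have h2 : Set.range b = U.subtype '' Set.range b' := by
      rw [← Set.range_comp]
      rfl
    rw [h2, ← Submodule.map_span] at h1
    obtain ⟨y, hy, hyu⟩ := h1
    have : y = ⟨u, hu⟩ := Subtype.ext hyu
    rw [← this]
    exact hy
  refine ⟨n, Module.Basis.mk hli' hsp', fun i g => ?_⟩
  rw [Module.Basis.mk_apply]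
  exact hfix i g

end Main

section Avoid

variable [Normal K L] [Infinite K] (A : SemiAct K L V)

/-- **Avoidance.** A stable subspace `U` (with open stabilisers) which is not contained in any of
finitely many subspaces `W i` contains a fixed vector outside all the `W i`. -/
theorem exists_fixed_notMem {ι : Type*} [Finite ι] (U : Submodule L V)
    (hU : ∀ g, ∀ u ∈ U, A.act g u ∈ U) (hopen : ∀ u ∈ U, A.OpenStab u)
    (W : ι → Submodule L V) (hW : ∀ i, ¬ U ≤ W i) :
    ∃ f ∈ U, (∀ g, A.act g f = f) ∧ ∀ i, f ∉ W i := by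
  classical
  let _ : Module K V := Module.compHom V (algebraMap K L)
  have hsmul : ∀ (k : K) (v : V), k • v = algebraMap K L k • v := fun _ _ => rfl
  have : IsScalarTower K L V := ⟨fun k l v => by
    rw [hsmul, Algebra.smul_def, mul_smul]⟩
  -- the `K`-subspace of fixed vectors of `U`
  let U₀ : Submodule K V :=
    { carrier := {v | v ∈ U ∧ ∀ g, A.act g v = v}
      add_mem' := fun {a b} ha hb =>
        ⟨U.add_mem ha.1 hb.1, fun g => by rw [A.act_add, ha.2 g, hb.2 g]⟩
      zero_mem' := ⟨U.zero_mem, fun g => A.act_zero g⟩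
      smul_mem' := fun k v hv =>
        ⟨by rw [hsmul]; exact U.smul_mem _ hv.1, fun g => by
          rw [hsmul, A.act_smul, hv.2 g, AlgEquiv.commutes]⟩ }
  let p : ι → Submodule K U₀ := fun i => Submodule.comap U₀.subtype ((W i).restrictScalars K)
  by_contra hcon
  push Not at hcon
  have hcov : ⋃ i, (p i : Set U₀) = Set.univ := by
    apply Set.eq_univ_of_forall
    rintro ⟨f, hf⟩
    obtain ⟨i, hi⟩ := hcon f hf.1 hf.2
    exact Set.mem_iUnion.mpr ⟨i, hi⟩
  obtain ⟨i, hi⟩ := Subspace.exists_eq_top_of_iUnion_eq_univ hcov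
  apply hW i
  rw [← span_fixed_eq A U hU hopen]
  apply Submodule.span_le.mpr
  intro v hv
  have h1 : (⟨v, hv⟩ : U₀) ∈ p i := by rw [hi]; exact Submodule.mem_top
  exact h1

end Avoid

end Fermat.Agent.S17.RatDesc
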