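import Mathlib
import Fermat.Agent.S17.Interfaces
import Fermat.Agent.S17.Rat.Descent

set_option autoImplicit false

/-!
# S17 / heights package, piece (RAT): Galois descent in the modular function field

`F = modularFunctionFieldBar N` with the arithmetic (coefficientwise, semilinear) action of
`GQ = Gal(ℚ̄/ℚ)`.

* `RatDesc.openStab`          (i)   every `f ∈ F` is fixed by the fixing subgroup of a number field;
* `RatDesc.span_fixed`        (ii)  a `GQ`-stable `ℚ̄`-subspace `U` of `F` is spanned by its fixed
                                  vectors;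
* `RatDesc.exists_fixed_family'` (ii') ... and if `U` is finite-dimensional it has a basis of fixed
                                  vectors;
* `RatDesc.fixed_const`       (iii) a `GQ`-fixed element of `ℚ̄` is rational;
* `RatDesc.exists_fixed_notMem'` (iv)  a `GQ`-stable `U` not contained in any of finitely many subspaces
                                  `W i` has a fixed vector outside all the `W i`.
-/

noncomputable section

namespace Fermat.Agent.S17.RatDesc

open ModularCurve AlgebraicCurve IntermediateField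

local notation "Qb" => AlgebraicClosure ℚ

/-! ### (i) open stabilisers -/

/-- A Laurent series over `ℚ̄` is fixed (coefficientwise) by the fixing subgroup of a number
field. -/
def IsNF (y : LaurentSeries Qb) : Prop :=
  ∃ E : IntermediateField ℚ Qb, FiniteDimensional ℚ E ∧
    ∀ σ : GQ, (∀ a ∈ E, σ a = a) → coeffMap (σ : Qb →+* Qb) y = y

theorem isNF_algebraMap (c : Qb) : IsNF (algebraMap Qb (LaurentSeries Qb) c) := by
  refine ⟨ℚ⟮c⟯, ?_, fun σ hσ => ?_⟩
  · exact IntermediateField.adjoin.finiteDimensional
      ((AlgebraicClosure.isAlgebraic ℚ).isAlgebraic c).isIntegral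
  · rw [coeffMap_algebraMap]
    congr 1
    exact hσ c (IntermediateField.mem_adjoin_simple_self ℚ c)

theorem isNF_coeffEmb (z : LaurentSeries ℚ) : IsNF (coeffEmb Qb z) :=
  ⟨⊥, inferInstance, fun σ _ => coeffMap_coeffEmb σ z⟩

theorem IsNF.binary {x y z : LaurentSeries Qb} (hx : IsNF x) (hy : IsNF y)
    (h : ∀ φ : LaurentSeries Qb →+* LaurentSeries Qb, φ x = x → φ y = y → φ z = z) :
    IsNF z := by
  obtain ⟨L₁, hL₁, h₁⟩ := hx
  obtain ⟨L₂, hL₂, h₂⟩ := hy
  refine ⟨L₁ ⊔ L₂, IntermediateField.finiteDimensional_sup L₁ L₂, fun σ hσ => ?_⟩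
  exact h _ (h₁ σ fun a ha => hσ a ((le_sup_left : L₁ ≤ L₁ ⊔ L₂) ha))
    (h₂ σ fun a ha => hσ a ((le_sup_right : L₂ ≤ L₁ ⊔ L₂) ha))

theorem IsNF.unary {x z : LaurentSeries Qb} (hx : IsNF x)
    (h : ∀ φ : LaurentSeries Qb →+* LaurentSeries Qb, φ x = x → φ z = z) : IsNF z :=
  hx.binary hx fun φ h1 _ => h φ h1

/-- Every element of a base-changed function field is defined over a number field. -/
theorem isNF_of_mem (F₀ : IntermediateField ℚ (LaurentSeries ℚ))
    {y : LaurentSeries Qb} (hy : y ∈ laurentBaseChange Qb F₀) : IsNF y := by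
  rw [mem_laurentBaseChange_iff] at hy
  induction hy using Subfield.closure_induction with
  | mem y hy =>
      rcases hy with ⟨a, rfl⟩ | ⟨z, _, rfl⟩
      · exact isNF_algebraMap a
      · exact isNF_coeffEmb z
  | one => exact ⟨⊥, inferInstance, fun σ _ => map_one _⟩
  | add x y _ _ hx hy => exact hx.binary hy fun φ h1 h2 => by rw [map_add, h1, h2]
  | neg x _ hx => exact hx.unary fun φ h1 => by rw [map_neg, h1]
  | inv x _ hx =>
      obtain ⟨L, hL, h⟩ := hx
      exact ⟨L, hL, fun σ hσ => by
        have := h σ hσ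
        calc coeffMap (σ : Qb →+* Qb) x⁻¹ = (coeffMap (σ : Qb →+* Qb) x)⁻¹ := map_inv₀ _ x
          _ = x⁻¹ := by rw [this]⟩
  | mul x y _ _ hx hy => exact hx.binary hy fun φ h1 h2 => by rw [map_mul, h1, h2]

/-- semilinearity of a `SemilinearAut`, generic form -/
theorem semilinearAut_smul_smul {K F : Type*} [Field K] [Field F] [Algebra K F]
    (g : SemilinearAut K F) (a : K) (v : F) :
    g • (a • v) = SemilinearAut.baseAut g a • (g • v) := by
  rw [Algebra.smul_def, Algebra.smul_def, smul_mul', SemilinearAut.smul_algebraMap]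

local instance ratIsAlgebraicQb : Algebra.IsAlgebraic ℚ Qb := AlgebraicClosure.isAlgebraic ℚ

local instance ratIsAlgClosureQb : IsAlgClosure ℚ Qb := ⟨inferInstance, inferInstance⟩

local instance ratNormalQb : Normal ℚ Qb := IsAlgClosure.normal ℚ Qb

local instance ratIsGaloisQb : IsGalois ℚ Qb := IsAlgClosure.isGalois ℚ Qb

section General

variable (F₀ : IntermediateField ℚ (LaurentSeries ℚ))

/-- semilinearity of the arithmetic action -/
theorem arith_smul_smul (g : GQ) (a : Qb) (v : laurentBaseChange Qb F₀) :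
    arithmeticGalois F₀ g • (a • v) = g a • (arithmeticGalois F₀ g • v) :=
  semilinearAut_smul_smul (arithmeticGalois F₀ g) a v

/-- The arithmetic action of `GQ` on a base-changed function field, as a `SemiAct`. -/
def arithAct : SemiAct ℚ Qb (laurentBaseChange Qb F₀) where
  act σ f := arithmeticGalois F₀ σ • f
  act_one f := by rw [map_one, one_smul]
  act_mul g h f := by rw [map_mul, mul_smul]
  act_add g v w := smul_add _ v w
  act_smul g a v := arith_smul_smul F₀ g a v

theorem arithAct_act (σ : GQ) (f : laurentBaseChange Qb F₀) :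
    (arithAct F₀).act σ f = arithmeticGalois F₀ σ • f := rfl

/-- (i), general form: every element of the base-changed function field is fixed by the fixing
subgroup of a number field. -/
theorem openStab_general (f : laurentBaseChange Qb F₀) :
    ∃ E : IntermediateField ℚ Qb, FiniteDimensional ℚ E ∧
      ∀ σ : GQ, (∀ a ∈ E, σ a = a) → arithmeticGalois F₀ σ • f = f := by
  obtain ⟨E, hE, h⟩ := isNF_of_mem F₀ f.2
  exact ⟨E, hE, fun σ hσ => Subtype.ext ((coe_arithmeticGalois_smul F₀ σ f).trans (h σ hσ))⟩

theorem arithAct_openStab (f : laurentBaseChange Qb F₀) : (arithAct F₀).OpenStab f :=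
  openStab_general F₀ f

/-- (ii), general form. -/
theorem span_fixed_general (U : Submodule Qb (laurentBaseChange Qb F₀))
    (hU : ∀ σ : GQ, ∀ f ∈ U, arithmeticGalois F₀ σ • f ∈ U) :
    Submodule.span Qb {f | f ∈ U ∧ ∀ σ : GQ, arithmeticGalois F₀ σ • f = f} = U :=
  span_fixed_eq (arithAct F₀) U hU fun f _ => arithAct_openStab F₀ f

/-- (ii'), general form: a basis of fixed vectors, as a family. -/
theorem exists_fixed_family_general (U : Submodule Qb (laurentBaseChange Qb F₀))
    [FiniteDimensional Qb U] (hU : ∀ σ : GQ, ∀ f ∈ U, arithmeticGalois F₀ σ • f ∈ U) :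
    ∃ (n : ℕ) (b : Fin n → laurentBaseChange Qb F₀), LinearIndependent Qb b ∧
      Submodule.span Qb (Set.range b) = U ∧
      ∀ (i : Fin n) (σ : GQ), arithmeticGalois F₀ σ • b i = b i :=
  exists_fixed_family (arithAct F₀) U hU fun f _ => arithAct_openStab F₀ f

/-- (ii'), general form: a basis of fixed vectors. -/
theorem exists_fixed_basis_general (U : Submodule Qb (laurentBaseChange Qb F₀))
    [FiniteDimensional Qb U] (hU : ∀ σ : GQ, ∀ f ∈ U, arithmeticGalois F₀ σ • f ∈ U) :
    ∃ (n : ℕ) (b : Module.Basis (Fin n) Qb U),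
      ∀ (i : Fin n) (σ : GQ),
        arithmeticGalois F₀ σ • (b i : laurentBaseChange Qb F₀) = (b i : laurentBaseChange Qb F₀) :=
  exists_fixed_basis (arithAct F₀) U hU fun f _ => arithAct_openStab F₀ f

/-- (iv), general form. -/
theorem exists_fixed_notMem_general {ι : Type*} [Finite ι]
    (U : Submodule Qb (laurentBaseChange Qb F₀))
    (hU : ∀ σ : GQ, ∀ f ∈ U, arithmeticGalois F₀ σ • f ∈ U)
    (W : ι → Submodule Qb (laurentBaseChange Qb F₀)) (hW : ∀ i, ¬ U ≤ W i) :
    ∃ f ∈ U, (∀ σ : GQ, arithmeticGalois F₀ σ • f = f) ∧ ∀ i, f ∉ W i :=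
  exists_fixed_notMem (arithAct F₀) U hU (fun f _ => arithAct_openStab F₀ f) W hW

end General

/-! ### (iii) fixed constants are rational -/

/-- (iii) a `GQ`-fixed element of `ℚ̄` is rational. -/
theorem fixed_const (a : Qb) (h : ∀ σ : GQ, σ a = a) : ∃ q : ℚ, algebraMap ℚ Qb q = a :=
  (InfiniteGalois.mem_range_algebraMap_iff_fixed a).mpr h

theorem fixed_const_iff (a : Qb) : (∀ σ : GQ, σ a = a) ↔ ∃ q : ℚ, algebraMap ℚ Qb q = a :=
  (InfiniteGalois.mem_range_algebraMap_iff_fixed a).symm

/-- the Laurent coefficients of a `GQ`-fixed element of a base-changed function field are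
rational -/
theorem coeff_rat_of_fixed (F₀ : IntermediateField ℚ (LaurentSeries ℚ))
    (f : laurentBaseChange Qb F₀) (h : ∀ σ : GQ, arithmeticGalois F₀ σ • f = f) (k : ℤ) :
    ∃ q : ℚ, algebraMap ℚ Qb q = (f : LaurentSeries Qb).coeff k := by
  apply fixed_const
  intro σ
  have h1 : coeffMap (σ : Qb →+* Qb) (f : LaurentSeries Qb) = (f : LaurentSeries Qb) :=
    (coe_arithmeticGalois_smul F₀ σ f).symm.trans (congrArg Subtype.val (h σ))
  have h2 := congrArg (fun y : LaurentSeries Qb => y.coeff k) h1
  exact h2

/-! ### the modular function field -/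

section Modular

variable (N : ℕ)

/-- **(i)** every `f ∈ F = modularFunctionFieldBar N` is fixed by the fixing subgroup of a number
field. -/
theorem openStab (f : modularFunctionFieldBar N) :
    ∃ E : IntermediateField ℚ Qb, FiniteDimensional ℚ E ∧
      ∀ σ : GQ, (∀ a ∈ E, σ a = a) →
        arithmeticGalois (modularFunctionFieldFull N) σ • f = f :=
  openStab_general (modularFunctionFieldFull N) f

/-- **(ii)** a `GQ`-stable `ℚ̄`-subspace of `F` is spanned by its `GQ`-fixed vectors. -/
theorem span_fixed (U : Submodule Qb (modularFunctionFieldBar N))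
    (hU : ∀ σ : GQ, ∀ f ∈ U, arithmeticGalois (modularFunctionFieldFull N) σ • f ∈ U) :
    Submodule.span Qb
      {f | f ∈ U ∧ ∀ σ : GQ, arithmeticGalois (modularFunctionFieldFull N) σ • f = f} = U :=
  span_fixed_general (modularFunctionFieldFull N) U hU

/-- **(ii')** a finite-dimensional `GQ`-stable subspace of `F` has a basis of fixed vectors
(family form). -/
theorem exists_fixed_family' (U : Submodule Qb (modularFunctionFieldBar N))
    [FiniteDimensional Qb U]
    (hU : ∀ σ : GQ, ∀ f ∈ U, arithmeticGalois (modularFunctionFieldFull N) σ • f ∈ U) :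
    ∃ (n : ℕ) (b : Fin n → modularFunctionFieldBar N), LinearIndependent Qb b ∧
      Submodule.span Qb (Set.range b) = U ∧
      ∀ (i : Fin n) (σ : GQ), arithmeticGalois (modularFunctionFieldFull N) σ • b i = b i :=
  exists_fixed_family_general (modularFunctionFieldFull N) U hU

/-- **(ii')** a finite-dimensional `GQ`-stable subspace of `F` has a basis of fixed vectors. -/
theorem exists_fixed_basis' (U : Submodule Qb (modularFunctionFieldBar N))
    [FiniteDimensional Qb U]
    (hU : ∀ σ : GQ, ∀ f ∈ U, arithmeticGalois (modularFunctionFieldFull N) σ • f ∈ U) :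
    ∃ (n : ℕ) (b : Module.Basis (Fin n) Qb U),
      ∀ (i : Fin n) (σ : GQ),
        arithmeticGalois (modularFunctionFieldFull N) σ • (b i : modularFunctionFieldBar N)
          = (b i : modularFunctionFieldBar N) :=
  exists_fixed_basis_general (modularFunctionFieldFull N) U hU

/-- **(iv)** if the `GQ`-stable subspace `U` is not contained in any of the finitely many
subspaces `W i`, there is a `GQ`-fixed `f ∈ U` outside all the `W i`. -/
theorem exists_fixed_notMem' {ι : Type*} [Finite ι]
    (U : Submodule Qb (modularFunctionFieldBar N))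
    (hU : ∀ σ : GQ, ∀ f ∈ U, arithmeticGalois (modularFunctionFieldFull N) σ • f ∈ U)
    (W : ι → Submodule Qb (modularFunctionFieldBar N)) (hW : ∀ i, ¬ U ≤ W i) :
    ∃ f ∈ U, (∀ σ : GQ, arithmeticGalois (modularFunctionFieldFull N) σ • f = f) ∧
      ∀ i, f ∉ W i :=
  exists_fixed_notMem_general (modularFunctionFieldFull N) U hU W hW

/-- **(iv)**, in the form "finitely many proper subspaces `W i ⊊ U`". -/
theorem exists_fixed_notMem_of_lt {ι : Type*} [Finite ι]
    (U : Submodule Qb (modularFunctionFieldBar N))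
    (hU : ∀ σ : GQ, ∀ f ∈ U, arithmeticGalois (modularFunctionFieldFull N) σ • f ∈ U)
    (W : ι → Submodule Qb (modularFunctionFieldBar N)) (hW : ∀ i, W i < U) :
    ∃ f ∈ U, (∀ σ : GQ, arithmeticGalois (modularFunctionFieldFull N) σ • f = f) ∧
      ∀ i, f ∉ W i :=
  exists_fixed_notMem' N U hU W fun i => not_le_of_gt (hW i)

end Modular

end Fermat.Agent.S17.RatDesc
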