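import Mathlib
import Fermat.Agent.S17.Rat.Modular
import Fermat.Agent.S17.H.Move

set_option autoImplicit false

/-!
# S17 / RAT: the input `Move.GenericFixed (Move.galRange N)` of seat G3 (MOVE)

Wiring of RAT (iv) (`RatDesc.exists_fixed_notMem'`) into the shape used by `S17/H/Move.lean`.
-/

noncomputable section

namespace Fermat.Agent.S17.RatDesc

open ModularCurve AlgebraicCurve

/-- RAT (iv) in the shape of `Move.GenericFixed`: a `Γ`-stable subspace of `F` has a `Γ`-fixed
vector outside finitely many subspaces that do not contain it (`Γ` = the image of `G_ℚ`). -/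
theorem genericFixed_galRange (N : ℕ) [NeZero N] : Move.GenericFixed (Move.galRange N) := by
  intro V _ hV s hs
  have hV' : ∀ σ : GQ, ∀ f ∈ V, arithmeticGalois (modularFunctionFieldFull N) σ • f ∈ V :=
    fun σ f hf => hV _ ⟨σ, rfl⟩ f hf
  obtain ⟨f, hfV, hfix, hnot⟩ :=
    exists_fixed_notMem' N V hV' (fun W : s => (W : Submodule _ _)) fun W => hs W.1 W.2
  refine ⟨f, hfV, ?_, fun W hW => hnot ⟨W, hW⟩⟩
  rintro g ⟨σ, rfl⟩
  exact hfix σ

end Fermat.Agent.S17.RatDesc
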