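import Mathlib
import Fermat.Agent.S17.Rat.Modular

set_option autoImplicit false

/-!
# S17 / RAT: a basis of fixed vectors starting with a given fixed vector

`exists_fixed_family_pointed`: a finite-dimensional stable subspace `U` (open stabilisers) and a
fixed vector `0 ≠ f₀ ∈ U`: there is a basis `b : Fin (r + 1) → V` of `U` consisting of fixed vectors
with `b 0 = f₀`.  Modular instance: `exists_fixed_family_pointed'` (used for the embedding basis
`φ` of `L(e P₀)` with `φ 0 = 1`, seat SETUP).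
-/

noncomputable section

namespace Fermat.Agent.S17.RatDesc

section Abstract

variable {K L V : Type*} [Field K] [Field L] [Algebra K L] [AddCommGroup V] [Module L V]
  [Normal K L] (A : SemiAct K L V)

theorem exists_fixed_family_pointed (U : Submodule L V) [FiniteDimensional L U]
    (hU : ∀ g, ∀ u ∈ U, A.act g u ∈ U) (hopen : ∀ u ∈ U, A.OpenStab u)
    {f₀ : V} (hf₀U : f₀ ∈ U) (hf₀ : ∀ g, A.act g f₀ = f₀) (hf₀0 : f₀ ≠ 0) :
    ∃ (r : ℕ) (b : Fin (r + 1) → V), LinearIndependent L b ∧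
      Submodule.span L (Set.range b) = U ∧ b 0 = f₀ ∧ ∀ i g, A.act g (b i) = b i := by
  classical
  set T : Set V := {v | v ∈ U ∧ ∀ g, A.act g v = v} with hT
  have hs : LinearIndepOn L id ({f₀} : Set V) := LinearIndepOn.singleton (R := L) (v := id) (i := f₀) hf₀0
  have hst : ({f₀} : Set V) ⊆ T := by
    rintro _ rfl
    exact ⟨hf₀U, hf₀⟩
  obtain ⟨B, hBT, hsB, hTB, hBli⟩ := exists_linearIndepOn_id_extension hs hst
  have hBspan : Submodule.span L B = U := by
    apply le_antisymm
    · exact Submodule.span_le.mpr fun v hv => (hBT hv).1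
    · rw [← span_fixed_eq A U hU hopen]
      exact Submodule.span_le.mpr hTB
  have hBli' : LinearIndependent L ((↑) : B → V) := hBli
  have hBU : ∀ x : B, (x : V) ∈ U := fun x => (hBT x.2).1
  have hliU : LinearIndependent L (fun x : B => (⟨(x : V), hBU x⟩ : U)) := by
    apply LinearIndependent.of_comp U.subtype
    exact hBli'
  have : Finite B := hliU.finite
  have hf₀B : f₀ ∈ B := hsB rfl
  obtain ⟨n, ⟨e⟩⟩ : ∃ n : ℕ, Nonempty (B ≃ Fin n) := Finite.exists_equiv_fin B
  -- `n = r + 1`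
  obtain ⟨r, rfl⟩ : ∃ r, n = r + 1 := by
    rcases n with _ | r
    · exact (e ⟨f₀, hf₀B⟩).elim0
    · exact ⟨r, rfl⟩
  -- move `f₀` to the index `0`
  let e' : B ≃ Fin (r + 1) := e.trans (Equiv.swap (e ⟨f₀, hf₀B⟩) 0)
  have he' : e' ⟨f₀, hf₀B⟩ = 0 := by
    show Equiv.swap (e ⟨f₀, hf₀B⟩) 0 (e ⟨f₀, hf₀B⟩) = 0
    exact Equiv.swap_apply_left _ _
  refine ⟨r, fun i => ((e'.symm i : B) : V), hBli'.comp e'.symm e'.symm.injective, ?_, ?_,
    fun i g => (hBT (e'.symm i).2).2 g⟩
  · have hrange : Set.range (fun i => ((e'.symm i : B) : V)) = B := by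
      ext v
      constructor
      · rintro ⟨i, rfl⟩
        exact (e'.symm i).2
      · intro hv
        exact ⟨e' ⟨v, hv⟩, by simp⟩
    rw [hrange, hBspan]
  · show ((e'.symm 0 : B) : V) = f₀
    rw [← he', Equiv.symm_apply_apply]

end Abstract

section Modular

open ModularCurve AlgebraicCurve

local notation "Qb" => AlgebraicClosure ℚ

local instance ratIsAlgebraicQb' : Algebra.IsAlgebraic ℚ Qb := AlgebraicClosure.isAlgebraic ℚ

local instance ratIsAlgClosureQb' : IsAlgClosure ℚ Qb := ⟨inferInstance, inferInstance⟩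

local instance ratNormalQb' : Normal ℚ Qb := IsAlgClosure.normal ℚ Qb

/-- general form (any `F₀`) -/
theorem exists_fixed_family_pointed_general (F₀ : IntermediateField ℚ (LaurentSeries ℚ))
    (U : Submodule Qb (laurentBaseChange Qb F₀)) [FiniteDimensional Qb U]
    (hU : ∀ σ : GQ, ∀ f ∈ U, arithmeticGalois F₀ σ • f ∈ U)
    {f₀ : laurentBaseChange Qb F₀} (hf₀U : f₀ ∈ U)
    (hf₀ : ∀ σ : GQ, arithmeticGalois F₀ σ • f₀ = f₀) (hf₀0 : f₀ ≠ 0) :
    ∃ (r : ℕ) (b : Fin (r + 1) → laurentBaseChange Qb F₀), LinearIndependent Qb b ∧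
      Submodule.span Qb (Set.range b) = U ∧ b 0 = f₀ ∧
      ∀ (i : Fin (r + 1)) (σ : GQ), arithmeticGalois F₀ σ • b i = b i :=
  exists_fixed_family_pointed (arithAct F₀) U hU (fun f _ => arithAct_openStab F₀ f)
    hf₀U hf₀ hf₀0

/-- **(ii'')** a finite-dimensional `GQ`-stable subspace `U` of `F = modularFunctionFieldBar N`
and a fixed `0 ≠ f₀ ∈ U`: a basis of `U` of `GQ`-fixed vectors starting with `f₀`. -/
theorem exists_fixed_family_pointed' (N : ℕ) (U : Submodule Qb (modularFunctionFieldBar N))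
    [FiniteDimensional Qb U]
    (hU : ∀ σ : GQ, ∀ f ∈ U, arithmeticGalois (modularFunctionFieldFull N) σ • f ∈ U)
    {f₀ : modularFunctionFieldBar N} (hf₀U : f₀ ∈ U)
    (hf₀ : ∀ σ : GQ, arithmeticGalois (modularFunctionFieldFull N) σ • f₀ = f₀) (hf₀0 : f₀ ≠ 0) :
    ∃ (r : ℕ) (b : Fin (r + 1) → modularFunctionFieldBar N), LinearIndependent Qb b ∧
      Submodule.span Qb (Set.range b) = U ∧ b 0 = f₀ ∧
      ∀ (i : Fin (r + 1)) (σ : GQ),
        arithmeticGalois (modularFunctionFieldFull N) σ • b i = b i :=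
  exists_fixed_family_pointed_general (modularFunctionFieldFull N) U hU hf₀U hf₀ hf₀0

/-- the constant function `1` is fixed -/
theorem arith_smul_one (F₀ : IntermediateField ℚ (LaurentSeries ℚ)) (σ : GQ) :
    arithmeticGalois F₀ σ • (1 : laurentBaseChange Qb F₀) = 1 :=
  smul_one _

/-- **(ii'')** for `f₀ = 1`: a basis of fixed vectors `b` of `U ∋ 1` with `b 0 = 1`. -/
theorem exists_fixed_family_one (N : ℕ) (U : Submodule Qb (modularFunctionFieldBar N))
    [FiniteDimensional Qb U]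
    (hU : ∀ σ : GQ, ∀ f ∈ U, arithmeticGalois (modularFunctionFieldFull N) σ • f ∈ U)
    (h1 : (1 : modularFunctionFieldBar N) ∈ U) :
    ∃ (r : ℕ) (b : Fin (r + 1) → modularFunctionFieldBar N), LinearIndependent Qb b ∧
      Submodule.span Qb (Set.range b) = U ∧ b 0 = 1 ∧
      ∀ (i : Fin (r + 1)) (σ : GQ),
        arithmeticGalois (modularFunctionFieldFull N) σ • b i = b i :=
  exists_fixed_family_pointed' N U hU h1 (arith_smul_one (modularFunctionFieldFull N))
    one_ne_zero

end Modular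

end Fermat.Agent.S17.RatDesc
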